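import Fermat.Agent.S40.Cov.DescDefs

/-!
# S40/S44, COV, block (Y): (CY3) `E = F[η]`
-/

set_option autoImplicit false
set_option synthInstance.maxHeartbeats 400000

open AlgebraicCurve ModularCurve Polynomial

namespace Fermat.Agent.S40Lib

open Fermat.Agent.S18Lib Fermat.Agent.S24Lib Fermat.Agent.ESLib Fermat.Agent.S34Lib
  Fermat.Agent.S33Lib Fermat.Agent.S36Lib Fermat.Agent.FFLib

noncomputable section

theorem CY3_coe_etaE (N : ℕ) (η : LaurentSeries Qb) :
    ((etaE N η : covE N η) : LaurentSeries Qb) = η := rfl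

theorem CY3_etaE_pow (N : ℕ) {p : ℕ} (η : LaurentSeries Qb) (y : FB N)
    (hη : η ^ p = (y : LaurentSeries Qb)) : etaE N η ^ p = algebraMap (FB N) (covE N η) y := by
  apply Subtype.ext
  rw [coe_algebraMap_FE, ← hη]
  rfl

theorem CY3_isIntegral (N : ℕ) {p : ℕ} (hp : 0 < p) (η : LaurentSeries Qb) (y : FB N)
    (hη : η ^ p = (y : LaurentSeries Qb)) : IsIntegral (FB N) (etaE N η) := by
  refine ⟨X ^ p - C y, monic_X_pow_sub_C y hp.ne', ?_⟩
  rw [eval₂_sub, eval₂_pow, eval₂_X, eval₂_C, sub_eq_zero]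
  exact CY3_etaE_pow N η y hη

theorem CY3_adjoin_field (N : ℕ) (η : LaurentSeries Qb) :
    IntermediateField.adjoin (FB N) {etaE N η} = ⊤ := by
  rw [eq_top_iff]
  intro z _
  let T : IntermediateField Qb (LaurentSeries Qb) :=
    ((IntermediateField.adjoin (FB N) {etaE N η}).toSubfield.map
      (algebraMap (covE N η) (LaurentSeries Qb))).toIntermediateField (fun c => by
        refine ⟨algebraMap Qb (covE N η) c, ?_, rfl⟩
        rw [IsScalarTower.algebraMap_apply Qb (FB N) (covE N η)]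
        exact (IntermediateField.adjoin (FB N) {etaE N η}).algebraMap_mem _)
  have hT : covE N η ≤ T := by
    refine sup_le ?_ ?_
    · intro f hf
      exact ⟨algebraMap (FB N) (covE N η) ⟨f, hf⟩,
        (IntermediateField.adjoin (FB N) {etaE N η}).algebraMap_mem _,
        coe_algebraMap_FE N η ⟨f, hf⟩⟩
    · rw [IntermediateField.adjoin_le_iff]
      intro x hx
      rw [Set.mem_singleton_iff] at hx
      subst hx
      exact ⟨etaE N x, IntermediateField.mem_adjoin_simple_self (FB N) _, rfl⟩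
  obtain ⟨w, hw, hwz⟩ := hT z.2
  have : w = z := Subtype.ext hwz
  rw [← this]
  exact hw

/-- (CY3) `S40/Cov/Y/AdjoinTop.lean` : `E = F[η]` -/
theorem adjoin_etaE_eq_top (N : ℕ) {p : ℕ} (hp : 0 < p) (η : LaurentSeries Qb) (y : FB N)
    (hη : η ^ p = (y : LaurentSeries Qb)) : Algebra.adjoin (FB N) {etaE N η} = ⊤ := by
  rw [← IntermediateField.adjoin_simple_toSubalgebra_of_isAlgebraic
    (CY3_isIntegral N hp η y hη).isAlgebraic,
    CY3_adjoin_field]
  rfl

end

end Fermat.Agent.S40Lib
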