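import Fermat.Agent.S40.Cov.Y.AdjoinTop

/-!
# S40/S44, COV, block (Y): (CY5) inertia preserves `E` and commutes with `g`
-/

set_option autoImplicit false
set_option synthInstance.maxHeartbeats 400000

open AlgebraicCurve ModularCurve Polynomial

namespace Fermat.Agent.S40Lib

open Fermat.Agent.S18Lib Fermat.Agent.S24Lib Fermat.Agent.ESLib Fermat.Agent.S34Lib
  Fermat.Agent.S33Lib Fermat.Agent.S36Lib Fermat.Agent.FFLib

noncomputable section

/-- `E = F(η)` is stable under `σ` as soon as `σ η ∈ E` -/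
theorem CY5_stable (N : ℕ) (η : LaurentSeries Qb) (σ : GQ)
    (h : coeffMap ((σ : GQ) : Qb →+* Qb) η ∈ covE N η) :
    ∀ z ∈ covE N η, coeffMap ((σ : GQ) : Qb →+* Qb) z ∈ covE N η := by
  let T : IntermediateField Qb (LaurentSeries Qb) :=
    ((covE N η).toSubfield.comap (coeffMap ((σ : GQ) : Qb →+* Qb))).toIntermediateField
      (fun c => by
        show coeffMap ((σ : GQ) : Qb →+* Qb) (algebraMap Qb (LaurentSeries Qb) c) ∈ covE N η
        rw [coeffMap_algebraMap]
        exact (covE N η).algebraMap_mem _)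
  have hT : covE N η ≤ T := by
    refine sup_le ?_ ?_
    · intro f hf
      show coeffMap ((σ : GQ) : Qb →+* Qb) f ∈ covE N η
      exact FB_le_covE N η (gal N σ ⟨f, hf⟩).2
    · rw [IntermediateField.adjoin_le_iff]
      intro x hx
      rw [Set.mem_singleton_iff] at hx
      subst hx
      exact h
  exact fun z hz => hT hz

/-- (CY5) `S40/Cov/Y/CovGen.lean` : inertia preserves `E` and commutes with `g` -/
theorem isCovGen_of_fix (A : ValuationSubring Qb) (N : ℕ) {p : ℕ} (hp : 0 < p)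
    (η : LaurentSeries Qb) (y : FB N) (hη : η ^ p = (y : LaurentSeries Qb)) (ζ : Qb)
    (g : covE N η ≃ₐ[FB N] covE N η)
    (hg : g (etaE N η) = algebraMap Qb (covE N η) ζ * etaE N η)
    (hfix : ∀ σ ∈ A.inertiaSubgroupIn ℚ, ∃ (j : ℕ) (G : FB N), (σ : GQ) ζ = ζ ^ j ∧
      coeffMap ((σ : GQ) : Qb →+* Qb) η = η ^ j * (G : LaurentSeries Qb)) :
    IsCovGen A N η ζ g := by
  have hst : ∀ σ ∈ A.inertiaSubgroupIn ℚ, ∀ z ∈ covE N η,
      coeffMap ((σ : GQ) : Qb →+* Qb) z ∈ covE N η := by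
    intro σ hσ
    obtain ⟨j, G, -, hG⟩ := hfix σ hσ
    apply CY5_stable
    rw [hG]
    exact mul_mem (pow_mem (eta_mem_covE _ η) j) (FB_le_covE _ η G.2)
  refine ⟨hg, hst, ?_⟩
  intro σ hσ z
  obtain ⟨j, G, hj, hG⟩ := hfix σ hσ
  have hz : z ∈ Algebra.adjoin (FB N) {etaE N η} := by
    rw [adjoin_etaE_eq_top N hp η y hη]
    trivial
  induction hz using Algebra.adjoin_induction with
  | mem x hx =>
    rw [Set.mem_singleton_iff] at hx
    subst hx
    have e1 : (⟨coeffMap ((σ : GQ) : Qb →+* Qb) ((etaE N η : covE N η) : LaurentSeries Qb),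
        hst σ hσ _ (etaE N η).2⟩ : covE N η) = etaE N η ^ j * algebraMap (FB N) (covE N η) G := by
      apply Subtype.ext
      show coeffMap ((σ : GQ) : Qb →+* Qb) η =
        η ^ j * ((algebraMap (FB N) (covE N η) G : covE N η) : LaurentSeries Qb)
      rw [coe_algebraMap_FE, hG]
    rw [e1, map_mul, map_pow, g.commutes, hg]
    show (algebraMap Qb (LaurentSeries Qb) ζ * η) ^ j *
        ((algebraMap (FB N) (covE N η) G : covE N η) : LaurentSeries Qb) =
      coeffMap ((σ : GQ) : Qb →+* Qb) (algebraMap Qb (LaurentSeries Qb) ζ * η)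
    rw [coe_algebraMap_FE, map_mul, coeffMap_algebraMap, hG]
    have : ((σ : GQ) : Qb →+* Qb) ζ = ζ ^ j := hj
    rw [this, map_pow, mul_pow]
    ring
  | algebraMap f =>
    have e1 : (⟨coeffMap ((σ : GQ) : Qb →+* Qb)
        ((algebraMap (FB N) (covE N η) f : covE N η) : LaurentSeries Qb),
        hst σ hσ _ (algebraMap (FB N) (covE N η) f).2⟩ : covE N η) =
        algebraMap (FB N) (covE N η) (gal N σ f) := by
      apply Subtype.ext
      show coeffMap ((σ : GQ) : Qb →+* Qb)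
        ((algebraMap (FB N) (covE N η) f : covE N η) : LaurentSeries Qb) =
        ((algebraMap (FB N) (covE N η) (gal N σ f) : covE N η) : LaurentSeries Qb)
      rw [coe_algebraMap_FE, coe_algebraMap_FE, coe_gal]
    rw [e1, g.commutes, g.commutes, coe_algebraMap_FE, coe_algebraMap_FE, coe_gal]
  | add a b _ _ ha hb =>
    have e1 : (⟨coeffMap ((σ : GQ) : Qb →+* Qb) ((a + b : covE N η) : LaurentSeries Qb),
        hst σ hσ _ (a + b).2⟩ : covE N η) =
        ⟨coeffMap ((σ : GQ) : Qb →+* Qb) (a : LaurentSeries Qb), hst σ hσ _ a.2⟩ +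
        ⟨coeffMap ((σ : GQ) : Qb →+* Qb) (b : LaurentSeries Qb), hst σ hσ _ b.2⟩ := by
      apply Subtype.ext
      exact map_add (coeffMap ((σ : GQ) : Qb →+* Qb)) _ _
    rw [e1, map_add, map_add]
    show ((g _ : covE N η) : LaurentSeries Qb) + ((g _ : covE N η) : LaurentSeries Qb) =
      coeffMap ((σ : GQ) : Qb →+* Qb)
        (((g a : covE N η) : LaurentSeries Qb) + ((g b : covE N η) : LaurentSeries Qb))
    rw [ha, hb, map_add]
  | mul a b _ _ ha hb =>
    have e1 : (⟨coeffMap ((σ : GQ) : Qb →+* Qb) ((a * b : covE N η) : LaurentSeries Qb),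
        hst σ hσ _ (a * b).2⟩ : covE N η) =
        ⟨coeffMap ((σ : GQ) : Qb →+* Qb) (a : LaurentSeries Qb), hst σ hσ _ a.2⟩ *
        ⟨coeffMap ((σ : GQ) : Qb →+* Qb) (b : LaurentSeries Qb), hst σ hσ _ b.2⟩ := by
      apply Subtype.ext
      exact map_mul (coeffMap ((σ : GQ) : Qb →+* Qb)) _ _
    rw [e1, map_mul, map_mul]
    show ((g _ : covE N η) : LaurentSeries Qb) * ((g _ : covE N η) : LaurentSeries Qb) =
      coeffMap ((σ : GQ) : Qb →+* Qb)
        (((g a : covE N η) : LaurentSeries Qb) * ((g b : covE N η) : LaurentSeries Qb))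
    rw [ha, hb, map_mul]

end

end Fermat.Agent.S40Lib
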