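import Fermat.Agent.S40.Cov.Y.AdjoinTop

/-!
# S40/S44, COV, block (Y): (CY4) the deck transformation `η ↦ ζ η`
-/

set_option autoImplicit false
set_option synthInstance.maxHeartbeats 400000

open AlgebraicCurve ModularCurve Polynomial

namespace Fermat.Agent.S40Lib

open Fermat.Agent.S18Lib Fermat.Agent.S24Lib Fermat.Agent.ESLib Fermat.Agent.S34Lib
  Fermat.Agent.S33Lib Fermat.Agent.S36Lib Fermat.Agent.FFLib

noncomputable section

theorem CY4_minpoly (N : ℕ) {p : ℕ} [hpF : Fact p.Prime] (η : LaurentSeries Qb) (y : FB N)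
    (hη : η ^ p = (y : LaurentSeries Qb)) (hy : ∀ g : FB N, g ^ p ≠ y) :
    minpoly (FB N) (etaE N η) = X ^ p - C y := by
  symm
  apply minpoly.eq_of_irreducible_of_monic
  · exact X_pow_sub_C_irreducible_of_prime hpF.out hy
  · rw [map_sub, map_pow, aeval_X, aeval_C, CY3_etaE_pow N η y hη, sub_self]
  · exact monic_X_pow_sub_C _ hpF.out.ne_zero

/-- (CY4) `S40/Cov/Y/Deck.lean` : the deck transformation -/
theorem exists_deck (N : ℕ) {p : ℕ} [Fact p.Prime] (η : LaurentSeries Qb) (y : FB N)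
    (hη : η ^ p = (y : LaurentSeries Qb)) (hy : ∀ g : FB N, g ^ p ≠ y) (ζ : Qb) (hζ : ζ ^ p = 1) :
    ∃ g : covE N η ≃ₐ[FB N] covE N η,
      g (etaE N η) = algebraMap Qb (covE N η) ζ * etaE N η := by
  have hp : 0 < p := (Fact.out : p.Prime).pos
  have hint := CY3_isIntegral N hp η y hη
  let pb : PowerBasis (FB N) (covE N η) :=
    PowerBasis.ofAdjoinEqTop hint (adjoin_etaE_eq_top N hp η y hη)
  have hgen : pb.gen = etaE N η := PowerBasis.ofAdjoinEqTop_gen _ _
  have hroot : aeval (algebraMap Qb (covE N η) ζ * etaE N η) (minpoly (FB N) pb.gen) = 0 := by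
    rw [hgen, CY4_minpoly N η y hη hy, map_sub, map_pow, aeval_X, aeval_C, mul_pow, ← map_pow, hζ,
      map_one, one_mul, CY3_etaE_pow N η y hη, sub_self]
  have : FiniteDimensional (FB N) (covE N η) := pb.finite
  let φ : covE N η →ₐ[FB N] covE N η := pb.lift _ hroot
  have hφ : φ (etaE N η) = algebraMap Qb (covE N η) ζ * etaE N η := by
    have := pb.lift_gen _ hroot
    rw [hgen] at this
    exact this
  refine ⟨AlgEquiv.ofBijective φ (Algebra.IsAlgebraic.algHom_bijective φ), ?_⟩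
  rw [AlgEquiv.coe_ofBijective]
  exact hφ

end

end Fermat.Agent.S40Lib
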