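import Fermat.Agent.S18.Defs

/-!
# S40/S44, COV, block (Y), leaf CY1 : Dwork's constant `lam ^ (p - 1) = - p` in `A`
-/

set_option autoImplicit false

namespace Fermat.Agent.S40Lib

open Fermat.Agent.S18Lib

/-- (CY1) Dwork's constant -/
theorem exists_lam (p : ℕ) (hp : 1 < p) (A : ValuationSubring Qb) :
    ∃ lam : A, lam ^ (p - 1) = -(p : A) := by
  have hn : p - 1 ≠ 0 := by omega
  obtain ⟨z, hz⟩ := IsAlgClosed.exists_pow_nat_eq (-(p : Qb)) (Nat.pos_of_ne_zero hn)
  have hpA : (-(p : Qb)) ∈ A := A.neg_mem _ (natCast_mem A p)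
  have hzA : z ∈ A := by
    by_contra hzn
    have h1 : z⁻¹ ∈ A := (A.mem_or_inv_mem z).resolve_left hzn
    -- `1 < v z`, so `1 < v (z ^ n)`
    have h2 : 1 < A.valuation z := by
      rw [← not_le]
      intro h
      exact hzn ((A.valuation_le_one_iff z).1 h)
    have h3 : A.valuation (z ^ (p - 1)) ≤ 1 := by
      rw [hz]
      exact (A.valuation_le_one_iff _).2 hpA
    rw [map_pow] at h3
    exact absurd h3 (not_le.2 (one_lt_pow₀ h2 hn))
  refine ⟨⟨z, hzA⟩, ?_⟩
  apply Subtype.ext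
  push_cast
  exact hz

end Fermat.Agent.S40Lib
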