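import Fermat.Agent.S40.ET
import Fermat.Agent.S40.Cov.Dv
import Fermat.Agent.S40.Cov.ShDefs

/-!
# S40/S44, COV, block (Y): definitions of the abstract part

An étale extension `O_E = O[θ]` (`D : ETData R E ι`) with a group `𝒢` of ring automorphisms of `E`
acting trivially on the reduction descends to the fixed fields.
-/

set_option autoImplicit false

open Polynomial Fermat.Agent.S18Lib Fermat.Agent.S34Lib Fermat.Agent.S36Lib

namespace Fermat.Agent.S40Lib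

section ET

variable {K k : Type*} [Field K] [Field k] {A : ValuationSubring K} {resK : A →+* k}
  {F Φ : Type*} [Field F] [Algebra K F] [CommRing Φ] [Algebra k Φ]
  {R : RedG A resK F Φ} {E : Type*} [Field E] [Algebra F E] [Algebra K E] [IsScalarTower K F E]

/-- `𝒢` acts on `O_E` and trivially on the reduction -/
def ETData.IsTriv {ι : Type*} [Fintype ι] [DecidableEq ι] (D : ETData R E ι)
    (𝒢 : Subgroup (RingAut E)) : Prop :=
  ∀ σ ∈ 𝒢, ∀ z : D.redG.O, ∃ h : (σ : RingAut E) (z : E) ∈ D.redG.O,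
    D.redG.red ⟨_, h⟩ = D.redG.red z

/-- finite orbits -/
def FinOrb (𝒢 : Subgroup (RingAut E)) : Prop :=
  ∀ z : E, {y : E | ∃ σ ∈ 𝒢, (σ : RingAut E) z = y}.Finite

variable {p : ℕ} [Fact p.Prime] (D : ETData R E (ZMod p))

/-- `g` generates `Gal(E / F)` and shifts the sheets by `m ≠ 0` -/
structure ETData.IsShift (g : E ≃ₐ[F] E) (m : ZMod p) : Prop where
  ne : m ≠ 0
  pow : g ^ p = 1
  fixed : ∀ z : E, g z = z → z ∈ (algebraMap F E).range
  mem : ∀ z : D.redG.O, g (z : E) ∈ D.redG.O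
  red : ∀ (z : D.redG.O) (h : g (z : E) ∈ D.redG.O) (j : ZMod p),
    D.redG.red ⟨_, h⟩ j = D.redG.red z (j + m)

end ET

section Desc

variable {K k : Type*} [Field K] [Field k] {A : ValuationSubring K} {resK : A →+* k}
  {F Φ : Type*} [Field F] [Algebra K F] [CommRing Φ] [Algebra k Φ]
  {E : Type*} [Field E] [Algebra F E]
  {K₀ : Type*} [Field K₀] {A₀ : ValuationSubring K₀} {resK₀ : A₀ →+* k}
  {F₀ E₀ : Type*} [Field F₀] [Field E₀] [Algebra K₀ F₀] [Algebra F₀ E₀]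

/-- the fixed fields `K₀ ⊆ K`, `F₀ ⊆ F`, `E₀ ⊆ E` of `𝒢` and the reduction datum `R₀` on `F₀` -/
structure IsFixData (R : RedG A resK F Φ) (R₀ : RedG A₀ resK₀ F₀ Φ) (𝒢 : Subgroup (RingAut E))
    (ιK : K₀ →+* K) (ιF : F₀ →+* F) (ιE : E₀ →+* E) : Prop where
  commK : ∀ c : K₀, ιF (algebraMap K₀ F₀ c) = algebraMap K F (ιK c)
  commF : ∀ a : F₀, ιE (algebraMap F₀ E₀ a) = algebraMap F E (ιF a)
  memA : ∀ c : K₀, c ∈ A₀ ↔ ιK c ∈ A
  resA : ∀ (c : A₀) (h : ιK (c : K₀) ∈ A), resK ⟨_, h⟩ = resK₀ c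
  memO : ∀ a : F₀, a ∈ R₀.O ↔ ιF a ∈ R.O
  redO : ∀ (a : R₀.O) (h : ιF (a : F₀) ∈ R.O), R.red ⟨_, h⟩ = R₀.red a
  /-- `𝒢` preserves `F` -/
  stabF : ∀ σ ∈ 𝒢, ∀ a : F, ∃ b : F, (σ : RingAut E) (algebraMap F E a) = algebraMap F E b
  fixF : ∀ a : F, (∀ σ ∈ 𝒢, (σ : RingAut E) (algebraMap F E a) = algebraMap F E a) ↔
    a ∈ ιF.range
  fixE : ∀ z : E, (∀ σ ∈ 𝒢, (σ : RingAut E) z = z) ↔ z ∈ ιE.range

end Desc

end Fermat.Agent.S40Lib
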