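import Fermat.Agent.S40.Cov.Y.Defs

/-!
# S40/S44, COV, block (Y): ABSTRACT part (leaf)
-/

set_option autoImplicit false

open Polynomial Fermat.Agent.S18Lib Fermat.Agent.S34Lib Fermat.Agent.S36Lib

namespace Fermat.Agent.S40Lib

section ET

variable {K k : Type*} [Field K] [Field k] {A : ValuationSubring K} {resK : A →+* k}
  {F Φ : Type*} [Field F] [Algebra K F] [CommRing Φ] [Algebra k Φ]
  {R : RedG A resK F Φ} {E : Type*} [Field E] [Algebra F E] [Algebra K E] [IsScalarTower K F E]

variable {p : ℕ} [Fact p.Prime] (D : ETData R E (ZMod p))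

variable {D}

omit [Algebra K E] [IsScalarTower K F E] in
theorem YA3c_pow_val {g : E ≃ₐ[F] E} (hg : g ^ p = 1) (c : ZMod p) :
    g ^ (c + 1).val = g * g ^ c.val := by
  haveI : Fact (1 < p) := ⟨(Fact.out : p.Prime).one_lt⟩
  rw [ZMod.val_add, ZMod.val_one, ← pow_eq_pow_mod _ hg, pow_succ']

/-- (YA3c) `S40/Cov/Y/CharPoly.lean` : the characteristic polynomial of any `z : E` -/
theorem ETData.IsShift.exists_charPoly {g : E ≃ₐ[F] E} {m : ZMod p} (hg : D.IsShift g m) (z : E) :
    ∃ Q : F[X], Q.map (algebraMap F E) = ∏ c : ZMod p, (X - C ((g ^ c.val) z)) := by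
  set Pi : E[X] := ∏ c : ZMod p, (X - C ((g ^ c.val) z)) with hPi
  have hfix : Pi.map (g : E →+* E) = Pi := by
    rw [hPi, Polynomial.map_prod]
    refine Fintype.prod_equiv (Equiv.addRight (1 : ZMod p)) _ _ fun c => ?_
    rw [Polynomial.map_sub, Polynomial.map_X, Polynomial.map_C, Equiv.coe_addRight,
      YA3c_pow_val hg.pow c]
    rfl
  have hmem : Pi ∈ Polynomial.lifts (algebraMap F E) := by
    rw [Polynomial.lifts_iff_coeff_lifts]
    intro n
    have h1 := congrArg (fun G : E[X] => G.coeff n) hfix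
    simp only [Polynomial.coeff_map] at h1
    exact hg.fixed _ h1
  exact (Polynomial.mem_lifts _).1 hmem

end ET

end Fermat.Agent.S40Lib
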