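import Fermat.Agent.S40.Cov.Y.Defs

/-!
# S40/S44, COV, block (Y): ABSTRACT part (leaf)
-/

set_option autoImplicit false

open Polynomial Fermat.Agent.S18Lib Fermat.Agent.S34Lib Fermat.Agent.S36Lib

namespace Fermat.Agent.S40Lib

section ET

variable {K k : Type*} [Field K] [Field k] {A : ValuationSubring K} {resK : A →+* k}
  {F Φ : Type*} [Field F] [Algebra K F] [CommRing Φ] [Algebra k Φ]
  {R : RedG A resK F Φ} {E : Type*} [Field E] [Algebra F E] [Algebra K E] [IsScalarTower K F E]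

variable {p : ℕ} [Fact p.Prime] (D : ETData R E (ZMod p))

variable {D}

/-- (YA3a) `S40/Cov/Y/Conj.lean` : iterates of `g` -/
theorem ETData.IsShift.iterate {g : E ≃ₐ[F] E} {m : ZMod p} (hg : D.IsShift g m) (c : ℕ)
    (z : D.redG.O) : ∃ h : (g ^ c) (z : E) ∈ D.redG.O, ∀ j : ZMod p,
      D.redG.red ⟨_, h⟩ j = D.redG.red z (j + c * m) := by
  induction c with
  | zero =>
    have e0 : (g ^ 0) (z : E) = (z : E) := by rw [pow_zero]; rfl
    have h0 : (g ^ 0) (z : E) ∈ D.redG.O := by rw [e0]; exact z.2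
    refine ⟨h0, fun j => ?_⟩
    have e : (⟨(g ^ 0) (z : E), h0⟩ : D.redG.O) = z := Subtype.ext e0
    rw [e, Nat.cast_zero, zero_mul, add_zero]
  | succ c ih =>
    obtain ⟨h, hr⟩ := ih
    have e0 : (g ^ (c + 1)) (z : E) = g ((g ^ c) (z : E)) := by
      rw [pow_succ']; rfl
    have h1 := hg.mem ⟨_, h⟩
    have h2 : (g ^ (c + 1)) (z : E) ∈ D.redG.O := by rw [e0]; exact h1
    refine ⟨h2, fun j => ?_⟩
    have e : (⟨(g ^ (c + 1)) (z : E), h2⟩ : D.redG.O) = ⟨_, h1⟩ := Subtype.ext e0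
    rw [e, hg.red ⟨_, h⟩ h1 j, hr]
    have e3 : j + m + (c : ZMod p) * m = j + ((c + 1 : ℕ) : ZMod p) * m := by
      push_cast
      ring
    rw [e3]

end ET

end Fermat.Agent.S40Lib
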