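import Fermat.Agent.S40.Cov.Y.Defs

/-!
# S40/S44, COV, block (Y): ABSTRACT part (leaf)
-/

set_option autoImplicit false

open Polynomial Fermat.Agent.S18Lib Fermat.Agent.S34Lib Fermat.Agent.S36Lib

namespace Fermat.Agent.S40Lib

section ET

variable {K k : Type*} [Field K] [Field k] {A : ValuationSubring K} {resK : A →+* k}
  {F Φ : Type*} [Field F] [Algebra K F] [CommRing Φ] [Algebra k Φ]
  {R : RedG A resK F Φ} {E : Type*} [Field E] [Algebra F E] [Algebra K E] [IsScalarTower K F E]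

section gen

variable {ι : Type*} [Fintype ι] [DecidableEq ι] (D : ETData R E ι)

/-- `σ` maps `x ∈ O_E` into `O_E`, with the same reduction -/
def ETData.YA0_Pr (σ : RingAut E) (x : E) : Prop :=
  ∃ (hx : x ∈ D.redG.O) (h : σ x ∈ D.redG.O), D.redG.red ⟨_, h⟩ = D.redG.red ⟨x, hx⟩

theorem ETData.YA0_add {σ : RingAut E} {x y : E} (hx : D.YA0_Pr σ x) (hy : D.YA0_Pr σ y) :
    D.YA0_Pr σ (x + y) := by
  obtain ⟨a1, a2, a3⟩ := hx
  obtain ⟨b1, b2, b3⟩ := hy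
  refine ⟨D.redG.O.add_mem a1 b1, by rw [map_add]; exact D.redG.O.add_mem a2 b2, ?_⟩
  have e1 : (⟨σ (x + y), by rw [map_add]; exact D.redG.O.add_mem a2 b2⟩ : D.redG.O)
      = ⟨_, a2⟩ + ⟨_, b2⟩ := Subtype.ext (map_add σ x y)
  have e2 : (⟨x + y, D.redG.O.add_mem a1 b1⟩ : D.redG.O) = ⟨_, a1⟩ + ⟨_, b1⟩ := rfl
  rw [e1, e2, map_add, map_add, a3, b3]

theorem ETData.YA0_mul {σ : RingAut E} {x y : E} (hx : D.YA0_Pr σ x) (hy : D.YA0_Pr σ y) :
    D.YA0_Pr σ (x * y) := by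
  obtain ⟨a1, a2, a3⟩ := hx
  obtain ⟨b1, b2, b3⟩ := hy
  refine ⟨D.redG.O.mul_mem a1 b1, by rw [map_mul]; exact D.redG.O.mul_mem a2 b2, ?_⟩
  have e1 : (⟨σ (x * y), by rw [map_mul]; exact D.redG.O.mul_mem a2 b2⟩ : D.redG.O)
      = ⟨_, a2⟩ * ⟨_, b2⟩ := Subtype.ext (map_mul σ x y)
  have e2 : (⟨x * y, D.redG.O.mul_mem a1 b1⟩ : D.redG.O) = ⟨_, a1⟩ * ⟨_, b1⟩ := rfl
  rw [e1, e2, map_mul, map_mul, a3, b3]

/-- (YA0) `S40/Cov/Y/Triv.lean` : it is enough to check `IsTriv` on `O` and on the generator -/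
theorem ETData.isTriv_of_gen (𝒢 : Subgroup (RingAut E))
    (hO : ∀ σ ∈ 𝒢, ∀ a : R.O, ∃ b : R.O, (σ : RingAut E) (algebraMap F E (a : F)) =
      algebraMap F E (b : F) ∧ R.red b = R.red a)
    (hgen : ∀ σ ∈ 𝒢, ∃ h : (σ : RingAut E) D.pb.gen ∈ D.redG.O,
      ∀ j, D.redG.red ⟨_, h⟩ j = D.τ j) : D.IsTriv 𝒢 := by
  intro σ hσ z
  have hC : ∀ a : R.O, D.YA0_Pr σ (algebraMap F E (a : F)) := by
    intro a
    obtain ⟨b, hb, hbr⟩ := hO σ hσ a
    refine ⟨D.algebraMap_mem_redG a, by rw [hb]; exact D.algebraMap_mem_redG b, ?_⟩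
    have e1 : (⟨σ (algebraMap F E (a : F)), by rw [hb]; exact D.algebraMap_mem_redG b⟩ : D.redG.O)
        = ⟨_, D.algebraMap_mem_redG b⟩ := Subtype.ext hb
    rw [e1]
    funext j
    rw [D.redG_red_algebraMap, D.redG_red_algebraMap, hbr]
  have hX : D.YA0_Pr σ D.pb.gen := by
    obtain ⟨h, hr⟩ := hgen σ hσ
    refine ⟨D.gen_mem_redG, h, ?_⟩
    funext j
    rw [hr, D.redG_red_gen]
  have hP : ∀ P : R.O[X], D.YA0_Pr σ (D.ev P) := by
    intro P
    induction P using Polynomial.induction_on with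
    | C a => rw [D.ev_C]; exact hC a
    | add P Q hP hQ => rw [map_add]; exact D.YA0_add hP hQ
    | monomial n a ih =>
      rw [pow_succ, ← mul_assoc, map_mul, D.ev_X]
      exact D.YA0_mul ih hX
  obtain ⟨P, -, hPz⟩ := (D.mem_redG_O _).1 z.2
  obtain ⟨h1, h2, h3⟩ := hP P
  have e : (⟨D.ev P, h1⟩ : D.redG.O) = z := Subtype.ext hPz
  subst e
  exact ⟨h2, h3⟩

/-- (YA0') `S40/Cov/Y/Triv.lean` : `O_E ∩ F = O` -/
theorem ETData.algebraMap_mem_redG_iff (a : F) : algebraMap F E a ∈ D.redG.O ↔ a ∈ R.O := by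
  constructor
  · intro h
    obtain ⟨P, hP, hPa⟩ := (D.mem_redG_O _).1 h
    have hroot : aeval D.pb.gen (P.map R.O.subtype - C a) = 0 := by
      rw [map_sub, aeval_C, sub_eq_zero, ← hPa, aeval_def, eval₂_map]
      rfl
    have hdeg : (P.map R.O.subtype - C a).natDegree < D.pb.dim := by
      refine lt_of_le_of_lt (natDegree_sub_le _ _) ?_
      rw [natDegree_C, max_lt_iff]
      exact ⟨lt_of_le_of_lt natDegree_map_le hP, D.dim_pos⟩
    have h0 : P.map R.O.subtype - C a = 0 := by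
      by_contra hne
      exact absurd (D.pb.dim_le_natDegree_of_root hne hroot) (not_le.2 hdeg)
    have h1 := congrArg (fun G : F[X] => G.coeff 0) (sub_eq_zero.1 h0)
    simp only [coeff_map, coeff_C_zero] at h1
    rw [← h1]
    exact (P.coeff 0).2
  · intro h
    exact D.algebraMap_mem_redG ⟨a, h⟩

end gen

end ET

end Fermat.Agent.S40Lib
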