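import Fermat.Agent.S40.Cov.Y.Defs
import Fermat.Agent.S40.Cov.Y.Triv
import Fermat.Agent.S40.Cov.Y.Conj
import Fermat.Agent.S40.Cov.Y.CharPoly

/-!
# S40/S44, COV, block (Y): ABSTRACT part (leaf)
-/

set_option autoImplicit false

open Polynomial Fermat.Agent.S18Lib Fermat.Agent.S34Lib Fermat.Agent.S36Lib

namespace Fermat.Agent.S40Lib

section ET

variable {K k : Type*} [Field K] [Field k] {A : ValuationSubring K} {resK : A →+* k}
  {F Φ : Type*} [Field F] [Algebra K F] [CommRing Φ] [Algebra k Φ]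
  {R : RedG A resK F Φ} {E : Type*} [Field E] [Algebra F E] [Algebra K E] [IsScalarTower K F E]

variable {p : ℕ} [Fact p.Prime] (D : ETData R E (ZMod p))

variable {D}

/-- (YA3) `S40/Cov/Y/CharPolyInt.lean` : the characteristic polynomial of `ϑ ∈ O_E` with
`red ϑ = τ` is monic, integral, and reduces to `∏ (X - τ j)` -/
theorem ETData.IsShift.exists_P {g : E ≃ₐ[F] E} {m : ZMod p} (hg : D.IsShift g m) (ϑ : D.redG.O)
    (hϑ : ∀ j, D.redG.red ϑ j = D.τ j) :
    ∃ P : R.O[X], P.Monic ∧ P.natDegree = p ∧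
      (P.map R.O.subtype).map (algebraMap F E) = ∏ c : ZMod p, (X - C ((g ^ c.val) (ϑ : E))) ∧
      P.map R.red = ∏ j, (X - C (D.τ j)) := by
  obtain ⟨Q, hQ⟩ := hg.exists_charPoly (ϑ : E)
  -- the conjugates, in `O_E`
  set Y : ZMod p → D.redG.O := fun c => ⟨_, (hg.iterate c.val ϑ).choose⟩ with hY
  have hYr : ∀ c j, D.redG.red (Y c) j = D.redG.red ϑ (j + (c.val : ZMod p) * m) :=
    fun c => (hg.iterate c.val ϑ).choose_spec
  set PO : D.redG.O[X] := ∏ c : ZMod p, (X - C (Y c)) with hPO
  have hPOmap : PO.map D.redG.O.subtype = ∏ c : ZMod p, (X - C ((g ^ c.val) (ϑ : E))) := by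
    rw [hPO, Polynomial.map_prod]
    refine Finset.prod_congr rfl fun c _ => ?_
    rw [Polynomial.map_sub, Polynomial.map_X, Polynomial.map_C]
    rfl
  have hcoef : ∀ n, Q.coeff n ∈ R.O := by
    intro n
    rw [← D.algebraMap_mem_redG_iff, ← Polynomial.coeff_map, hQ, ← hPOmap, Polynomial.coeff_map]
    exact (PO.coeff n).2
  have hlift : Q ∈ Polynomial.lifts R.O.subtype := by
    rw [Polynomial.lifts_iff_coeff_lifts]
    intro n
    exact ⟨⟨_, hcoef n⟩, rfl⟩
  obtain ⟨P, hP⟩ := (Polynomial.mem_lifts _).1 hlift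
  have hPE : (P.map R.O.subtype).map (algebraMap F E)
      = ∏ c : ZMod p, (X - C ((g ^ c.val) (ϑ : E))) := by rw [hP, hQ]
  have hinj : Function.Injective ((algebraMap F E).comp R.O.subtype) :=
    (algebraMap F E).injective.comp Subtype.val_injective
  have hPE' : P.map ((algebraMap F E).comp R.O.subtype)
      = ∏ c : ZMod p, (X - C ((g ^ c.val) (ϑ : E))) := by rw [← Polynomial.map_map, hPE]
  refine ⟨P, ?_, ?_, hPE, ?_⟩
  · apply Polynomial.monic_of_injective hinj
    rw [hPE']
    exact monic_prod_of_monic _ _ fun c _ => monic_X_sub_C _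
  · rw [← natDegree_map_eq_of_injective hinj, hPE', natDegree_finsetProd_X_sub_C_eq_card,
      Finset.card_univ, ZMod.card]
  · set inc : R.O →+* D.redG.O :=
      RingHom.codRestrict ((algebraMap F E).comp R.O.subtype) D.redG.O
        (fun a => D.algebraMap_mem_redG a) with hinc
    set ρ : D.redG.O →+* Φ := (Pi.evalRingHom (fun _ : ZMod p => Φ) 0).comp D.redG.red with hρ
    have hρinc : ρ.comp inc = R.red := by
      ext a
      exact D.redG_red_algebraMap a 0
    have hPinc : P.map inc = PO := by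
      apply Polynomial.map_injective D.redG.O.subtype Subtype.val_injective
      rw [hPOmap, Polynomial.map_map, ← hPE']
      rfl
    rw [← hρinc, ← Polynomial.map_map, hPinc, hPO, Polynomial.map_prod]
    refine Fintype.prod_equiv (Equiv.mulRight₀ m hg.ne) _ _ fun c => ?_
    rw [Polynomial.map_sub, Polynomial.map_X, Polynomial.map_C]
    have e : ρ (Y c) = D.τ (c * m) := by
      show D.redG.red (Y c) 0 = _
      rw [hYr, hϑ, zero_add, ZMod.natCast_zmod_val]
    rw [e]
    rfl

end ET

end Fermat.Agent.S40Lib
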