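import Fermat.Agent.S40.Cov.Y.Defs

/-!
# S40/S44, COV, block (Y), (YD2): descent of a power basis
-/

set_option autoImplicit false
set_option linter.unusedSectionVars false

open Polynomial Fermat.Agent.S18Lib Fermat.Agent.S34Lib Fermat.Agent.S36Lib

namespace Fermat.Agent.S40Lib

section Desc

variable {K k : Type*} [Field K] [Field k] {A : ValuationSubring K} {resK : A →+* k}
  {F Φ : Type*} [Field F] [Algebra K F] [CommRing Φ] [Algebra k Φ]
  {R : RedG A resK F Φ} {E : Type*} [Field E] [Algebra F E] [Algebra K E] [IsScalarTower K F E]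
  {K₀ : Type*} [Field K₀] {A₀ : ValuationSubring K₀} {resK₀ : A₀ →+* k}
  {F₀ E₀ : Type*} [Field F₀] [Field E₀] [Algebra K₀ F₀] [Algebra F₀ E₀] [Algebra K₀ E₀]
  [IsScalarTower K₀ F₀ E₀]

variable {R₀ : RedG A₀ resK₀ F₀ Φ} {𝒢 : Subgroup (RingAut E)}
  {ιK : K₀ →+* K} {ιF : F₀ →+* F} {ιE : E₀ →+* E}

/-- uniqueness of the coordinates in a power basis -/
theorem YD2_coord_unique (pb : PowerBasis F E) (a b : Fin pb.dim → F)
    (h : ∑ i, algebraMap F E (a i) * pb.gen ^ (i : ℕ) = ∑ i, algebraMap F E (b i) * pb.gen ^ (i : ℕ)) :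
    a = b := by
  have hli := pb.basis.linearIndependent
  rw [Fintype.linearIndependent_iff] at hli
  funext i
  have h1 := hli (fun i => a i - b i) (by
    simp only [PowerBasis.coe_basis, Algebra.smul_def, map_sub, sub_mul, Finset.sum_sub_distrib]
    rw [h, sub_self]) i
  exact sub_eq_zero.1 h1

theorem YD2_exists_coord (pb : PowerBasis F E) (z : E) :
    ∃ a : Fin pb.dim → F, z = ∑ i, algebraMap F E (a i) * pb.gen ^ (i : ℕ) := by
  refine ⟨fun i => pb.basis.repr z i, ?_⟩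
  conv_lhs => rw [← pb.basis.sum_repr z]
  simp only [PowerBasis.coe_basis, Algebra.smul_def]

/-- (YD2) `S40/Cov/Y/DescBasis.lean` : a power basis of `E / F` with `𝒢`-fixed generator descends -/
theorem IsFixData.exists_powerBasis (H : IsFixData R R₀ 𝒢 ιK ιF ιE) (pb : PowerBasis F E)
    (ϑ₀ : E₀) (hϑ : ιE ϑ₀ = pb.gen) :
    ∃ pb₀ : PowerBasis F₀ E₀, pb₀.gen = ϑ₀ ∧ pb₀.dim = pb.dim := by
  have hιE : ∀ a : Fin pb.dim → F₀, ιE (∑ i, a i • ϑ₀ ^ (i : ℕ)) =
      ∑ i, algebraMap F E (ιF (a i)) * pb.gen ^ (i : ℕ) := by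
    intro a
    rw [map_sum]
    refine Finset.sum_congr rfl fun i _ => ?_
    rw [Algebra.smul_def, map_mul, map_pow, hϑ, H.commF]
  have hli : LinearIndependent F₀ (fun i : Fin pb.dim => ϑ₀ ^ (i : ℕ)) := by
    rw [Fintype.linearIndependent_iff]
    intro a ha i
    have h1 := congrArg ιE ha
    rw [hιE, map_zero] at h1
    have h2 := YD2_coord_unique pb (fun i => ιF (a i)) (fun _ => 0) (by
      rw [h1]
      simp)
    have h3 := congrFun h2 i
    exact (map_eq_zero ιF).1 h3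
  have hgen : ∀ σ ∈ 𝒢, (σ : RingAut E) pb.gen = pb.gen :=
    (H.fixE pb.gen).2 ⟨ϑ₀, hϑ⟩
  have hspan : ⊤ ≤ Submodule.span F₀ (Set.range fun i : Fin pb.dim => ϑ₀ ^ (i : ℕ)) := by
    intro z _
    obtain ⟨b, hb⟩ := YD2_exists_coord pb (ιE z)
    have hz : ∀ σ ∈ 𝒢, (σ : RingAut E) (ιE z) = ιE z := (H.fixE (ιE z)).2 ⟨z, rfl⟩
    have hbfix : ∀ i, ∀ σ ∈ 𝒢, (σ : RingAut E) (algebraMap F E (b i)) = algebraMap F E (b i) := by
      intro i σ hσ
      choose b' hb' using fun i => H.stabF σ hσ (b i)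
      have h1 := hz σ hσ
      rw [hb] at h1
      rw [map_sum] at h1
      have h2 : ∑ i, algebraMap F E (b' i) * pb.gen ^ (i : ℕ) =
          ∑ i, algebraMap F E (b i) * pb.gen ^ (i : ℕ) := by
        rw [← h1]
        refine Finset.sum_congr rfl fun i _ => ?_
        rw [map_mul, map_pow, hgen σ hσ, hb']
      rw [hb' i, YD2_coord_unique pb b' b h2]
    choose a ha using fun i => (H.fixF (b i)).1 (hbfix i)
    have h3 : z = ∑ i, a i • ϑ₀ ^ (i : ℕ) := by
      apply ιE.injective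
      rw [hιE, hb]
      refine Finset.sum_congr rfl fun i _ => ?_
      rw [ha]
    rw [h3]
    exact Submodule.sum_mem _ fun i _ =>
      Submodule.smul_mem _ _ (Submodule.subset_span ⟨i, rfl⟩)
  exact ⟨⟨ϑ₀, pb.dim, Module.Basis.mk hli hspan, fun i => Module.Basis.mk_apply hli hspan i⟩,
    rfl, rfl⟩

end Desc

end Fermat.Agent.S40Lib
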