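import Fermat.Agent.S40.Cov.Y.Defs
import Fermat.Agent.S33.XScale

/-!
# S40/S44, COV, block (Y), (YD4): `O_{E₀} = E₀ ∩ O_E`, same reduction
-/

set_option autoImplicit false
set_option linter.unusedSectionVars false

open Polynomial Fermat.Agent.S18Lib Fermat.Agent.S34Lib Fermat.Agent.S36Lib

namespace Fermat.Agent.S40Lib

section Desc

variable {K k : Type*} [Field K] [Field k] {A : ValuationSubring K} {resK : A →+* k}
  {F Φ : Type*} [Field F] [Algebra K F] [CommRing Φ] [Algebra k Φ]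
  {R : RedG A resK F Φ} {E : Type*} [Field E] [Algebra F E] [Algebra K E] [IsScalarTower K F E]
  {K₀ : Type*} [Field K₀] {A₀ : ValuationSubring K₀} {resK₀ : A₀ →+* k}
  {F₀ E₀ : Type*} [Field F₀] [Field E₀] [Algebra K₀ F₀] [Algebra F₀ E₀] [Algebra K₀ E₀]
  [IsScalarTower K₀ F₀ E₀]

variable {R₀ : RedG A₀ resK₀ F₀ Φ} {𝒢 : Subgroup (RingAut E)}
  {ιK : K₀ →+* K} {ιF : F₀ →+* F} {ιE : E₀ →+* E}

variable {p : ℕ} [Fact p.Prime] {D : ETData R E (ZMod p)}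

/-- `ιE` on constants -/
theorem IsFixData.commKE (H : IsFixData R R₀ 𝒢 ιK ιF ιE) (c : K₀) :
    ιE (algebraMap K₀ E₀ c) = algebraMap K E (ιK c) := by
  rw [IsScalarTower.algebraMap_apply K₀ F₀ E₀, H.commF, H.commK,
    ← IsScalarTower.algebraMap_apply K F E]

/-- the forward direction, for polynomials in the generator -/
theorem YD4_fwd (H : IsFixData R R₀ 𝒢 ιK ιF ιE) (D₀ : ETData R₀ E₀ (ZMod p))
    (hτ : D₀.τ = D.τ) (h : ιE D₀.pb.gen ∈ D.redG.O)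
    (hred : ∀ j, D.redG.red ⟨_, h⟩ j = D.τ j) (P : R₀.O[X]) :
    ∃ hm : ιE (D₀.ev P) ∈ D.redG.O, D.redG.red ⟨_, hm⟩ = D₀.rd P := by
  have hf : ∀ a : R₀.O, ((algebraMap F E).comp (ιF.comp R₀.O.subtype)) a ∈ D.redG.O := by
    intro a
    exact D.algebraMap_mem_redG ⟨ιF (a : F₀), (H.memO _).1 a.2⟩
  let f : R₀.O →+* D.redG.O :=
    ((algebraMap F E).comp (ιF.comp R₀.O.subtype)).codRestrict D.redG.O hf
  let Ψ : R₀.O[X] →+* D.redG.O := eval₂RingHom f ⟨_, h⟩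
  have h1 : (D.redG.O.subtype).comp Ψ = ιE.comp D₀.ev := by
    apply Polynomial.ringHom_ext
    · intro a
      show ((Ψ (C a) : D.redG.O) : E) = ιE (D₀.ev (C a))
      rw [D₀.ev_C, H.commF]
      simp only [Ψ, coe_eval₂RingHom, eval₂_C]
      rfl
    · show ((Ψ X : D.redG.O) : E) = ιE (D₀.ev X)
      rw [D₀.ev_X]
      simp only [Ψ, coe_eval₂RingHom, eval₂_X]
  have h2 : D.redG.red.comp Ψ = D₀.rd := by
    apply Polynomial.ringHom_ext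
    · intro a
      show D.redG.red (Ψ (C a)) = D₀.rd (C a)
      rw [D₀.rd_C]
      simp only [Ψ, coe_eval₂RingHom, eval₂_C]
      funext j
      have e := D.redG_red_algebraMap ⟨ιF (a : F₀), (H.memO _).1 a.2⟩ j
      rw [H.redO a] at e
      exact e
    · show D.redG.red (Ψ X) = D₀.rd X
      rw [D₀.rd_X, hτ]
      simp only [Ψ, coe_eval₂RingHom, eval₂_X]
      funext j
      exact hred j
  have h3 : ((Ψ P : D.redG.O) : E) = ιE (D₀.ev P) := congrArg (fun φ => φ P) h1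
  have hm : ιE (D₀.ev P) ∈ D.redG.O := by
    rw [← h3]
    exact (Ψ P).2
  refine ⟨hm, ?_⟩
  have h4 : (⟨_, hm⟩ : D.redG.O) = Ψ P := Subtype.ext h3.symm
  rw [h4]
  exact congrArg (fun φ => φ P) h2

/-- (YD4) `S40/Cov/Y/DescCompat.lean` : `O_{E₀} = E₀ ∩ O_E`, same reduction -/
theorem IsFixData.compat (H : IsFixData R R₀ 𝒢 ιK ιF ιE) (D₀ : ETData R₀ E₀ (ZMod p))
    (hτ : D₀.τ = D.τ) (h : ιE D₀.pb.gen ∈ D.redG.O)
    (hred : ∀ j, D.redG.red ⟨_, h⟩ j = D.τ j) :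
    (∀ z : E₀, z ∈ D₀.redG.O ↔ ιE z ∈ D.redG.O) ∧
      ∀ (z : D₀.redG.O) (hz : ιE (z : E₀) ∈ D.redG.O), D.redG.red ⟨_, hz⟩ = D₀.redG.red z := by
  have hb : ∀ (z : D₀.redG.O) (hz : ιE (z : E₀) ∈ D.redG.O),
      D.redG.red ⟨_, hz⟩ = D₀.redG.red z := by
    intro z hz
    obtain ⟨P, -, hP⟩ := (D₀.mem_redG_O _).1 z.2
    obtain ⟨hm, hr⟩ := YD4_fwd H D₀ hτ h hred P
    have e1 : (⟨_, hz⟩ : D.redG.O) = ⟨_, hm⟩ := Subtype.ext (congrArg ιE hP.symm)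
    have e2 : z = ⟨D₀.ev P, D₀.ev_mem_redG P⟩ := Subtype.ext hP.symm
    rw [e1, hr, e2]
    funext j
    rw [D₀.redG_red_ev, D₀.rd_apply]
  refine ⟨fun z => ⟨fun hz => ?_, fun hz => ?_⟩, hb⟩
  · obtain ⟨P, -, hP⟩ := (D₀.mem_redG_O _).1 hz
    obtain ⟨hm, -⟩ := YD4_fwd H D₀ hτ h hred P
    rwa [hP] at hm
  · by_cases hz0 : z = 0
    · rw [hz0]
      exact D₀.redG.O.zero_mem
    obtain ⟨c, hc, y, hy, hzy⟩ := D₀.redG.exists_scale z hz0
    by_cases hcA : c ∈ A₀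
    · rw [hzy]
      exact D₀.redG.O.mul_mem ((D₀.redG.algebraMap_mem_iff c).2 hcA) y.2
    exfalso
    have hinv : c⁻¹ ∈ A₀ := (A₀.mem_or_inv_mem c).resolve_left hcA
    have := ET_nontrivial R₀
    have hres : resK₀ ⟨c⁻¹, hinv⟩ = 0 := by
      rw [Fermat.Agent.S33Lib.xs_ker R₀]
      intro hu
      obtain ⟨d, hd⟩ := hu.exists_right_inv
      have hd' : c⁻¹ * (d : K₀) = 1 := congrArg Subtype.val hd
      have : (d : K₀) = c := by
        field_simp at hd'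
        exact hd'
      exact hcA (this ▸ d.2)
    have hyz : ((y : D₀.redG.O) : E₀) = algebraMap K₀ E₀ c⁻¹ * z := by
      rw [hzy, ← mul_assoc, ← map_mul, inv_mul_cancel₀ hc, map_one, one_mul]
    have hA' : ιK c⁻¹ ∈ A := (H.memA _).1 hinv
    have hιy : ιE ((y : D₀.redG.O) : E₀) =
        ((D.redG.const ⟨ιK c⁻¹, hA'⟩ * ⟨ιE z, hz⟩ : D.redG.O) : E) := by
      rw [hyz, map_mul, H.commKE]
      rfl
    have hym : ιE ((y : D₀.redG.O) : E₀) ∈ D.redG.O := by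
      rw [hιy]
      exact (D.redG.const ⟨ιK c⁻¹, hA'⟩ * ⟨ιE z, hz⟩ : D.redG.O).2
    have h5 := hb y hym
    have e3 : (⟨_, hym⟩ : D.redG.O) = D.redG.const ⟨ιK c⁻¹, hA'⟩ * ⟨ιE z, hz⟩ := Subtype.ext hιy
    rw [e3, map_mul, D.redG.red_const, H.resA ⟨c⁻¹, hinv⟩ hA', hres, map_zero, zero_mul] at h5
    exact hy h5.symm

end Desc

end Fermat.Agent.S40Lib
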