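import Fermat.Agent.S40.Cov.Y.Defs

/-!
# S40/S44, COV, block (Y), (YD1): descent of polynomials
-/

set_option autoImplicit false
set_option linter.unusedSectionVars false

open Polynomial Fermat.Agent.S18Lib Fermat.Agent.S34Lib Fermat.Agent.S36Lib

namespace Fermat.Agent.S40Lib

section Desc

variable {K k : Type*} [Field K] [Field k] {A : ValuationSubring K} {resK : A →+* k}
  {F Φ : Type*} [Field F] [Algebra K F] [CommRing Φ] [Algebra k Φ]
  {R : RedG A resK F Φ} {E : Type*} [Field E] [Algebra F E] [Algebra K E] [IsScalarTower K F E]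
  {K₀ : Type*} [Field K₀] {A₀ : ValuationSubring K₀} {resK₀ : A₀ →+* k}
  {F₀ E₀ : Type*} [Field F₀] [Field E₀] [Algebra K₀ F₀] [Algebra F₀ E₀] [Algebra K₀ E₀]
  [IsScalarTower K₀ F₀ E₀]

variable {R₀ : RedG A₀ resK₀ F₀ Φ} {𝒢 : Subgroup (RingAut E)}
  {ιK : K₀ →+* K} {ιF : F₀ →+* F} {ιE : E₀ →+* E}

/-- (YD1) `S40/Cov/Y/DescPoly.lean` : a polynomial over `R.O` whose image in `E[X]` is `𝒢`-fixed
comes from `R₀.O` -/
theorem IsFixData.exists_poly (H : IsFixData R R₀ 𝒢 ιK ιF ιE) (P : R.O[X])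
    (hP : ∀ σ ∈ 𝒢, ∀ n, (σ : RingAut E) (algebraMap F E ((P.coeff n : R.O) : F)) =
      algebraMap F E ((P.coeff n : R.O) : F)) :
    ∃ P₀ : R₀.O[X], (P₀.map R₀.O.subtype).map ιF = P.map R.O.subtype ∧
      P₀.map R₀.red = P.map R.red := by
  have h1 : ∀ n, ∃ c : R₀.O, ιF (c : F₀) = ((P.coeff n : R.O) : F) := by
    intro n
    obtain ⟨a, ha⟩ := (H.fixF _).1 (fun σ hσ => hP σ hσ n)
    have hmem : a ∈ R₀.O := by
      rw [H.memO, ha]
      exact (P.coeff n).2
    exact ⟨⟨a, hmem⟩, ha⟩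
  choose c hc using h1
  have hcoeff : ∀ n, (∑ i ∈ Finset.range (P.natDegree + 1), C (c i) * X ^ i : R₀.O[X]).coeff n =
      c n := by
    intro n
    rw [finsetSum_coeff]
    simp only [coeff_C_mul_X_pow]
    rw [Finset.sum_ite_eq]
    split_ifs with hn
    · rfl
    · have h0 : P.coeff n = 0 := by
        apply coeff_eq_zero_of_natDegree_lt
        rw [Finset.mem_range] at hn
        omega
      have h2 := hc n
      rw [h0, ZeroMemClass.coe_zero, map_eq_zero] at h2
      exact (Subtype.ext h2).symm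
  refine ⟨∑ i ∈ Finset.range (P.natDegree + 1), C (c i) * X ^ i, ?_, ?_⟩
  · ext n
    rw [coeff_map, coeff_map, coeff_map, hcoeff]
    exact hc n
  · ext n
    rw [coeff_map, coeff_map, hcoeff]
    have hm : ιF (c n : F₀) ∈ R.O := by
      rw [hc n]
      exact (P.coeff n).2
    rw [← H.redO (c n) hm]
    congr 1
    exact Subtype.ext (hc n)

end Desc

end Fermat.Agent.S40Lib
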