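import Fermat.Agent.S40.Cov.Y.Defs
import Fermat.Agent.S40.Cov.EtDesc

/-!
# S40/S44, COV, block (Y): ABSTRACT part (leaf)
-/

set_option autoImplicit false

open Polynomial Fermat.Agent.S18Lib Fermat.Agent.S34Lib Fermat.Agent.S36Lib

namespace Fermat.Agent.S40Lib

section ET

variable {K k : Type*} [Field K] [Field k] {A : ValuationSubring K} {resK : A →+* k}
  {F Φ : Type*} [Field F] [Algebra K F] [CommRing Φ] [Algebra k Φ]
  {R : RedG A resK F Φ} {E : Type*} [Field E] [Algebra F E] [Algebra K E] [IsScalarTower K F E]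

variable {p : ℕ} [Fact p.Prime] (D : ETData R E (ZMod p))

variable {D}

/-- (YA4) `S40/Cov/Y/NewGen.lean` : `1, ϑ, …, ϑ^(p-1)` is a basis of `E / F` -/
theorem ETData.IsShift.exists_powerBasis {g : E ≃ₐ[F] E} {m : ZMod p} (hg : D.IsShift g m)
    (ϑ : D.redG.O) (hϑ : ∀ j, D.redG.red ϑ j = D.τ j) :
    ∃ pb : PowerBasis F E, pb.gen = (ϑ : E) ∧ pb.dim = p := by
  have hW : D.redG.red ϑ = D.τ := funext hϑ
  have hli := ED_li D ϑ hW
  have hfd : FiniteDimensional F E := D.pb.finite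
  have hsp := hli.span_eq_top_of_card_eq_finrank' (by rw [Fintype.card_fin, D.pb.finrank])
  refine ⟨{ gen := (ϑ : E), dim := D.pb.dim, basis := Module.Basis.mk hli hsp.ge,
            basis_eq_pow := fun i => by rw [Module.Basis.mk_apply] }, rfl, ?_⟩
  show D.pb.dim = p
  rw [← D.card_eq, ZMod.card]

end ET

end Fermat.Agent.S40Lib
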