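import Fermat.Agent.S40.Cov.Y.FixedGen
import Fermat.Agent.S40.Cov.Y.CharPolyInt
import Fermat.Agent.S40.Cov.Y.NewGen
import Fermat.Agent.S40.Cov.Y.DescPoly
import Fermat.Agent.S40.Cov.Y.DescBasis

/-!
# S40/S44, COV, block (Y), (YD3): the étale datum over the fixed fields
-/

set_option autoImplicit false
set_option linter.unusedSectionVars false

open Polynomial Fermat.Agent.S18Lib Fermat.Agent.S34Lib Fermat.Agent.S36Lib

namespace Fermat.Agent.S40Lib

section Desc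

variable {K k : Type*} [Field K] [Field k] {A : ValuationSubring K} {resK : A →+* k}
  {F Φ : Type*} [Field F] [Algebra K F] [CommRing Φ] [Algebra k Φ]
  {R : RedG A resK F Φ} {E : Type*} [Field E] [Algebra F E] [Algebra K E] [IsScalarTower K F E]
  {K₀ : Type*} [Field K₀] {A₀ : ValuationSubring K₀} {resK₀ : A₀ →+* k}
  {F₀ E₀ : Type*} [Field F₀] [Field E₀] [Algebra K₀ F₀] [Algebra F₀ E₀] [Algebra K₀ E₀]
  [IsScalarTower K₀ F₀ E₀]

variable {R₀ : RedG A₀ resK₀ F₀ Φ} {𝒢 : Subgroup (RingAut E)}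
  {ιK : K₀ →+* K} {ιF : F₀ →+* F} {ιE : E₀ →+* E}

variable {p : ℕ} [Fact p.Prime] {D : ETData R E (ZMod p)}

/-- iterates of `g` commute with `σ` -/
theorem YD3_comm_pow {E F : Type*} [Field E] [Field F] [Algebra F E] (g : E ≃ₐ[F] E)
    (σ : RingAut E) (h : ∀ z : E, σ (g z) = g (σ z)) (n : ℕ) (z : E) :
    σ ((g ^ n) z) = (g ^ n) (σ z) := by
  induction n generalizing z with
  | zero => rfl
  | succ n ih => rw [pow_succ, AlgEquiv.mul_apply, AlgEquiv.mul_apply, ih, h]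

/-- (YD3) `S40/Cov/Y/DescET.lean` : **the étale datum over the fixed fields** -/
theorem IsFixData.exists_etData (H : IsFixData R R₀ 𝒢 ιK ιF ιE) (horb : FinOrb 𝒢)
    (hA : D.IsTriv 𝒢) {g : E ≃ₐ[F] E} {m : ZMod p} (hg : D.IsShift g m)
    (hcomm : ∀ σ ∈ 𝒢, ∀ z : E, (σ : RingAut E) (g z) = g ((σ : RingAut E) z)) :
    ∃ D₀ : ETData R₀ E₀ (ZMod p), D₀.τ = D.τ ∧ D₀.pb.dim = p ∧
      ∃ h : ιE D₀.pb.gen ∈ D.redG.O, ∀ j, D.redG.red ⟨_, h⟩ j = D.τ j := by
  -- invariant lifts of the `τ j`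
  have hτ : ∀ j, ∃ a : R.O, R.red a = D.τ j ∧
      ∀ σ ∈ 𝒢, (σ : RingAut E) (algebraMap F E (a : F)) = algebraMap F E (a : F) := by
    intro j
    obtain ⟨a₀, ha₀⟩ := R₀.red_surjective (D.τ j)
    have hm : ιF (a₀ : F₀) ∈ R.O := (H.memO _).1 a₀.2
    refine ⟨⟨_, hm⟩, ?_, ?_⟩
    · rw [H.redO a₀ hm, ha₀]
    · exact (H.fixF _).2 ⟨_, rfl⟩
  obtain ⟨ϑ, hϑr, hϑf⟩ := D.exists_fixed_gen 𝒢 horb hA hτ
  obtain ⟨P, hPm, hPd, hPE, hPr⟩ := hg.exists_P ϑ hϑr
  -- the coefficients of `P` are invariant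
  have hPfix : ∀ σ ∈ 𝒢, ∀ n, (σ : RingAut E) (algebraMap F E ((P.coeff n : R.O) : F)) =
      algebraMap F E ((P.coeff n : R.O) : F) := by
    intro σ hσ n
    have h1 : ((P.map R.O.subtype).map (algebraMap F E)).map ((σ : RingAut E) : E →+* E) =
        (P.map R.O.subtype).map (algebraMap F E) := by
      rw [hPE, Polynomial.map_prod]
      refine Finset.prod_congr rfl fun c _ => ?_
      rw [Polynomial.map_sub, Polynomial.map_X, Polynomial.map_C]
      congr 2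
      show (σ : RingAut E) ((g ^ c.val) (ϑ : E)) = _
      rw [YD3_comm_pow g σ (hcomm σ hσ), hϑf σ hσ]
    have h2 := congrArg (fun Q => Q.coeff n) h1
    simp only [coeff_map] at h2
    exact h2
  obtain ⟨P₀, hP₀, hP₀r⟩ := H.exists_poly P hPfix
  obtain ⟨pb, hpbg, hpbd⟩ := hg.exists_powerBasis ϑ hϑr
  obtain ⟨ϑ₀, hϑ₀⟩ := (H.fixE (ϑ : E)).1 hϑf
  obtain ⟨pb₀, hpb₀g, hpb₀d⟩ := H.exists_powerBasis pb ϑ₀ (by rw [hϑ₀, hpbg])
  have hinj : Function.Injective (ιF.comp R₀.O.subtype) :=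
    ιF.injective.comp Subtype.val_injective
  have hmap : P₀.map (ιF.comp R₀.O.subtype) = P.map R.O.subtype := by
    rw [← Polynomial.map_map, hP₀]
  have hP₀m : P₀.Monic := by
    apply Polynomial.monic_of_injective hinj
    rw [hmap]
    exact hPm.map _
  have hP₀d : P₀.natDegree = pb₀.dim := by
    rw [hpb₀d, hpbd, ← hPd, ← natDegree_map_eq_of_injective hinj, hmap,
      natDegree_map_eq_of_injective Subtype.val_injective]
  have hroot : eval₂ ((algebraMap F₀ E₀).comp R₀.O.subtype) pb₀.gen P₀ = 0 := by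
    apply ιE.injective
    rw [map_zero, Polynomial.hom_eval₂, hpb₀g, hϑ₀]
    have e1 : ιE.comp ((algebraMap F₀ E₀).comp R₀.O.subtype) =
        (algebraMap F E).comp (ιF.comp R₀.O.subtype) := by
      ext a
      exact H.commF _
    rw [e1, ← Polynomial.eval₂_map, hmap, ← Polynomial.eval_map, hPE, eval_prod]
    apply Finset.prod_eq_zero (Finset.mem_univ (0 : ZMod p))
    rw [ZMod.val_zero, pow_zero, eval_sub, eval_X, eval_C]
    exact sub_self _
  refine ⟨{ pb := pb₀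
            P0 := P₀
            monic := hP₀m
            natDegree_eq := hP₀d
            root := hroot
            τ := D.τ
            map_P0 := by rw [hP₀r, hPr]
            isUnit_sub := D.isUnit_sub }, rfl, by rw [hpb₀d, hpbd], ?_⟩
  show ∃ h : ιE pb₀.gen ∈ D.redG.O, ∀ j, D.redG.red ⟨_, h⟩ j = D.τ j
  have e2 : ιE pb₀.gen = (ϑ : E) := by rw [hpb₀g, hϑ₀]
  have hm : ιE pb₀.gen ∈ D.redG.O := by
    rw [e2]
    exact ϑ.2
  refine ⟨hm, fun j => ?_⟩
  have e3 : (⟨_, hm⟩ : D.redG.O) = ϑ := Subtype.ext e2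
  rw [e3]
  exact hϑr j

end Desc

end Fermat.Agent.S40Lib
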