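import Fermat.Agent.S40.Cov.Y.Defs

/-!
# S40/S44, COV, block (Y), (YD5): the generator `g` descends to `E₀ / F₀`
-/

set_option autoImplicit false
set_option linter.unusedSectionVars false

open Polynomial Fermat.Agent.S18Lib Fermat.Agent.S34Lib Fermat.Agent.S36Lib

namespace Fermat.Agent.S40Lib

section Desc

variable {K k : Type*} [Field K] [Field k] {A : ValuationSubring K} {resK : A →+* k}
  {F Φ : Type*} [Field F] [Algebra K F] [CommRing Φ] [Algebra k Φ]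
  {R : RedG A resK F Φ} {E : Type*} [Field E] [Algebra F E] [Algebra K E] [IsScalarTower K F E]
  {K₀ : Type*} [Field K₀] {A₀ : ValuationSubring K₀} {resK₀ : A₀ →+* k}
  {F₀ E₀ : Type*} [Field F₀] [Field E₀] [Algebra K₀ F₀] [Algebra F₀ E₀] [Algebra K₀ E₀]
  [IsScalarTower K₀ F₀ E₀]

variable {R₀ : RedG A₀ resK₀ F₀ Φ} {𝒢 : Subgroup (RingAut E)}
  {ιK : K₀ →+* K} {ιF : F₀ →+* F} {ιE : E₀ →+* E}

variable {p : ℕ} [Fact p.Prime] {D : ETData R E (ZMod p)}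

/-- an `F`-automorphism commuting with `𝒢` descends -/
theorem YD5_exists_equiv (H : IsFixData R R₀ 𝒢 ιK ιF ιE) (g : E ≃ₐ[F] E)
    (hcomm : ∀ σ ∈ 𝒢, ∀ z : E, (σ : RingAut E) (g z) = g ((σ : RingAut E) z)) :
    ∃ g₀ : E₀ ≃ₐ[F₀] E₀, ∀ z, ιE (g₀ z) = g (ιE z) := by
  have hfix : ∀ z : E₀, ∀ σ ∈ 𝒢, (σ : RingAut E) (ιE z) = ιE z :=
    fun z => (H.fixE (ιE z)).2 ⟨z, rfl⟩
  have h1 : ∀ z : E₀, ∃ w : E₀, ιE w = g (ιE z) := by
    intro z
    apply (H.fixE _).1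
    intro σ hσ
    rw [hcomm σ hσ, hfix z σ hσ]
  have hcomm' : ∀ σ ∈ 𝒢, ∀ z : E, (σ : RingAut E) (g.symm z) = g.symm ((σ : RingAut E) z) := by
    intro σ hσ z
    apply g.injective
    rw [← hcomm σ hσ, g.apply_symm_apply, g.apply_symm_apply]
  have h2 : ∀ z : E₀, ∃ w : E₀, ιE w = g.symm (ιE z) := by
    intro z
    apply (H.fixE _).1
    intro σ hσ
    rw [hcomm' σ hσ, hfix z σ hσ]
  choose G hG using h1
  choose G' hG' using h2
  refine ⟨{ toFun := G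
            invFun := G'
            left_inv := ?_
            right_inv := ?_
            map_mul' := ?_
            map_add' := ?_
            commutes' := ?_ }, hG⟩
  · intro z
    apply ιE.injective
    rw [hG', hG, g.symm_apply_apply]
  · intro z
    apply ιE.injective
    rw [hG, hG', g.apply_symm_apply]
  · intro x y
    apply ιE.injective
    rw [hG, map_mul, map_mul, map_mul, hG, hG]
  · intro x y
    apply ιE.injective
    rw [hG, map_add, map_add, map_add, hG, hG]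
  · intro a
    apply ιE.injective
    rw [hG, H.commF, g.commutes]

/-- (YD5) `S40/Cov/Y/DescGen.lean` : `g` descends to `E₀ / F₀`, and is again a shift -/
theorem IsFixData.exists_gen (H : IsFixData R R₀ 𝒢 ιK ιF ιE) (D₀ : ETData R₀ E₀ (ZMod p))
    (hO : ∀ z : E₀, z ∈ D₀.redG.O ↔ ιE z ∈ D.redG.O)
    (hred : ∀ (z : D₀.redG.O) (hz : ιE (z : E₀) ∈ D.redG.O),
      D.redG.red ⟨_, hz⟩ = D₀.redG.red z)
    {g : E ≃ₐ[F] E} {m : ZMod p} (hg : D.IsShift g m)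
    (hcomm : ∀ σ ∈ 𝒢, ∀ z : E, (σ : RingAut E) (g z) = g ((σ : RingAut E) z)) :
    ∃ g₀ : E₀ ≃ₐ[F₀] E₀, (∀ z, ιE (g₀ z) = g (ιE z)) ∧ D₀.IsShift g₀ m := by
  obtain ⟨g₀, hg₀⟩ := YD5_exists_equiv H g hcomm
  have hpow : ∀ (n : ℕ) (z : E₀), ιE ((g₀ ^ n) z) = (g ^ n) (ιE z) := by
    intro n
    induction n with
    | zero => intro z; rfl
    | succ n ih =>
      intro z
      rw [pow_succ, pow_succ, AlgEquiv.mul_apply, AlgEquiv.mul_apply, ih, hg₀]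
  have hmem : ∀ z : D₀.redG.O, g₀ (z : E₀) ∈ D₀.redG.O := by
    intro z
    rw [hO, hg₀]
    exact hg.mem ⟨ιE z, (hO _).1 z.2⟩
  refine ⟨g₀, hg₀, hg.ne, ?_, ?_, hmem, ?_⟩
  · apply AlgEquiv.ext
    intro z
    apply ιE.injective
    rw [hpow, hg.pow]
    rfl
  · intro z hz
    have h1 : g (ιE z) = ιE z := by rw [← hg₀, hz]
    obtain ⟨a, ha⟩ := hg.fixed _ h1
    have h2 : ∀ σ ∈ 𝒢, (σ : RingAut E) (algebraMap F E a) = algebraMap F E a := by
      rw [ha]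
      exact (H.fixE (ιE z)).2 ⟨z, rfl⟩
    obtain ⟨a₀, ha₀⟩ := (H.fixF a).1 h2
    refine ⟨a₀, ?_⟩
    apply ιE.injective
    rw [H.commF, ha₀, ha]
  · intro z h j
    have hz : ιE (z : E₀) ∈ D.redG.O := (hO _).1 z.2
    have hgz : ιE (g₀ (z : E₀)) ∈ D.redG.O := (hO _).1 h
    have hgz' : g (ιE (z : E₀)) ∈ D.redG.O := by
      rw [← hg₀]
      exact hgz
    have e1 := hred ⟨_, h⟩ hgz
    have e2 := hg.red ⟨_, hz⟩ hgz' j
    have e3 : (⟨_, hgz⟩ : D.redG.O) = ⟨_, hgz'⟩ := Subtype.ext (hg₀ _)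
    rw [← e1, e3, e2, hred z hz]

end Desc

end Fermat.Agent.S40Lib
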