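import Mathlib

/-!
# S40/S44, COV, block (Y), leaf (YA1): idempotents lift to invariants (orbit product)
-/

set_option autoImplicit false

namespace Fermat.Agent.S40Lib

section Orbit

variable {E Ψ : Type*} [Field E] [CommRing Ψ]

/-- (YA1) the product over the (finite) orbit of a lift of an idempotent is an invariant lift -/
theorem exists_fixed_lift_idem (O : Subring E) (red : O →+* Ψ)
    (hsurj : Function.Surjective red) (𝒢 : Subgroup (RingAut E))
    (horb : ∀ z : E, {y : E | ∃ σ ∈ 𝒢, (σ : RingAut E) z = y}.Finite)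
    (hA : ∀ σ ∈ 𝒢, ∀ z : O, ∃ h : (σ : RingAut E) (z : E) ∈ O, red ⟨_, h⟩ = red z)
    (e : Ψ) (he : e * e = e) :
    ∃ z : O, red z = e ∧ ∀ σ ∈ 𝒢, (σ : RingAut E) (z : E) = z := by
  classical
  obtain ⟨z₀, hz₀⟩ := hsurj e
  set S : Finset E := (horb (z₀ : E)).toFinset with hS
  have hmemS : ∀ y, y ∈ S ↔ ∃ σ ∈ 𝒢, (σ : RingAut E) (z₀ : E) = y := by
    intro y
    rw [hS, Set.Finite.mem_toFinset]
    rfl
  have hz₀S : (z₀ : E) ∈ S := (hmemS _).2 ⟨1, 𝒢.one_mem, rfl⟩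
  -- every subproduct is integral, with reduction a power of `e`
  have hpow : ∀ n : ℕ, e ^ (n + 1) = e := by
    intro n
    induction n with
    | zero => rw [zero_add, pow_one]
    | succ n ih => rw [pow_succ, ih, he]
  have hsub : ∀ T : Finset E, T ⊆ S → ∃ h : ∏ y ∈ T, y ∈ O, red ⟨_, h⟩ = e ^ T.card := by
    intro T
    induction T using Finset.induction_on with
    | empty =>
      intro _
      have h0 : ∏ y ∈ (∅ : Finset E), y ∈ O := by rw [Finset.prod_empty]; exact O.one_mem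
      refine ⟨h0, ?_⟩
      have : (⟨∏ y ∈ (∅ : Finset E), y, h0⟩ : O) = 1 :=
        Subtype.ext (Finset.prod_empty (f := fun y : E => y))
      rw [this, map_one, Finset.card_empty, pow_zero]
    | insert a T ha ih =>
      intro hT
      obtain ⟨h1, h2⟩ := ih (fun y hy => hT (Finset.mem_insert_of_mem hy))
      obtain ⟨σ, hσ, hσa⟩ := (hmemS a).1 (hT (Finset.mem_insert_self a T))
      obtain ⟨h3, h4⟩ := hA σ hσ z₀
      rw [hσa] at h3
      have h5 : red ⟨a, h3⟩ = e := by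
        rw [← hz₀, ← h4]
        congr 1
        exact Subtype.ext hσa.symm
      have h6 : ∏ y ∈ insert a T, y ∈ O := by
        rw [Finset.prod_insert ha]; exact O.mul_mem h3 h1
      refine ⟨h6, ?_⟩
      have : (⟨_, h6⟩ : O) = ⟨a, h3⟩ * ⟨_, h1⟩ := Subtype.ext (Finset.prod_insert ha)
      rw [this, map_mul, h5, h2, Finset.card_insert_of_notMem ha, pow_succ, mul_comm]
  obtain ⟨h1, h2⟩ := hsub S (Finset.Subset.refl S)
  refine ⟨⟨_, h1⟩, ?_, ?_⟩
  · rw [h2]
    obtain ⟨n, hn⟩ : ∃ n, S.card = n + 1 :=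
      Nat.exists_eq_succ_of_ne_zero (Finset.card_ne_zero_of_mem hz₀S)
    rw [hn, hpow]
  · intro σ hσ
    show (σ : RingAut E) (∏ y ∈ S, y) = ∏ y ∈ S, y
    rw [map_prod]
    refine Finset.prod_bij (fun y _ => (σ : RingAut E) y) ?_ ?_ ?_ ?_
    · intro y hy
      obtain ⟨τ, hτ, rfl⟩ := (hmemS y).1 hy
      exact (hmemS _).2 ⟨σ * τ, 𝒢.mul_mem hσ hτ, rfl⟩
    · intro y _ y' _ h
      exact (σ : RingAut E).injective h
    · intro y hy
      obtain ⟨τ, hτ, rfl⟩ := (hmemS y).1 hy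
      refine ⟨(σ⁻¹ * τ : RingAut E) (z₀ : E),
        (hmemS _).2 ⟨σ⁻¹ * τ, 𝒢.mul_mem (𝒢.inv_mem hσ) hτ, rfl⟩, ?_⟩
      show (σ * (σ⁻¹ * τ) : RingAut E) (z₀ : E) = _
      rw [mul_inv_cancel_left]
    · intro y _
      rfl

end Orbit

end Fermat.Agent.S40Lib
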