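import Fermat.Agent.S40.Cov.Y.Defs
import Fermat.Agent.S40.Cov.Y.Orbit

/-!
# S40/S44, COV, block (Y): ABSTRACT part (leaf)
-/

set_option autoImplicit false

open Polynomial Fermat.Agent.S18Lib Fermat.Agent.S34Lib Fermat.Agent.S36Lib

namespace Fermat.Agent.S40Lib

section ET

variable {K k : Type*} [Field K] [Field k] {A : ValuationSubring K} {resK : A →+* k}
  {F Φ : Type*} [Field F] [Algebra K F] [CommRing Φ] [Algebra k Φ]
  {R : RedG A resK F Φ} {E : Type*} [Field E] [Algebra F E] [Algebra K E] [IsScalarTower K F E]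

section gen

variable {ι : Type*} [Fintype ι] [DecidableEq ι] (D : ETData R E ι)

/-- (YA2) `S40/Cov/Y/FixedGen.lean` : an invariant element `ϑ ∈ O_E` with the reduction of `θ` -/
theorem ETData.exists_fixed_gen (𝒢 : Subgroup (RingAut E)) (horb : FinOrb 𝒢) (hA : D.IsTriv 𝒢)
    (hτ : ∀ j, ∃ a : R.O, R.red a = D.τ j ∧
      ∀ σ ∈ 𝒢, (σ : RingAut E) (algebraMap F E (a : F)) = algebraMap F E (a : F)) :
    ∃ ϑ : D.redG.O, (∀ j, D.redG.red ϑ j = D.τ j) ∧ ∀ σ ∈ 𝒢, (σ : RingAut E) (ϑ : E) = ϑ := by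
  have hidem : ∀ j : ι, ∃ z : D.redG.O, D.redG.red z = Pi.single j 1 ∧
      ∀ σ ∈ 𝒢, (σ : RingAut E) (z : E) = z := by
    intro j
    refine exists_fixed_lift_idem D.redG.O D.redG.red D.redG.red_surjective 𝒢 horb hA
      (Pi.single j 1) ?_
    rw [← Pi.single_mul, one_mul]
  choose w hw1 hw2 using hidem
  choose a ha1 ha2 using hτ
  refine ⟨∑ j, w j * ⟨algebraMap F E ((a j : R.O) : F), D.algebraMap_mem_redG (a j)⟩, ?_, ?_⟩
  · intro i
    rw [map_sum, Finset.sum_apply, Finset.sum_eq_single i]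
    · rw [map_mul, Pi.mul_apply, hw1, Pi.single_eq_same, one_mul, D.redG_red_algebraMap, ha1]
    · intro j _ hj
      rw [map_mul, Pi.mul_apply, hw1, Pi.single_eq_of_ne (Ne.symm hj), zero_mul]
    · intro h
      exact absurd (Finset.mem_univ i) h
  · intro σ hσ
    have e : ((∑ j, w j * ⟨algebraMap F E ((a j : R.O) : F), D.algebraMap_mem_redG (a j)⟩ :
        D.redG.O) : E) = ∑ j, ((w j : D.redG.O) : E) * algebraMap F E ((a j : R.O) : F) :=
      map_sum D.redG.O.subtype _ _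
    rw [e, map_sum]
    refine Finset.sum_congr rfl fun j _ => ?_
    rw [map_mul, hw2 j σ hσ, ha2 j σ hσ]

end gen

end ET

end Fermat.Agent.S40Lib
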