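import Fermat.Agent.S40.Cov.Y.Defs

/-!
# S40/S44, COV, block (Y): (YS4), (YS4') comparison of discrete valuations
-/

set_option autoImplicit false

open Polynomial Fermat.Agent.S18Lib Fermat.Agent.S34Lib Fermat.Agent.S36Lib

namespace Fermat.Agent.S40Lib

/-- (YS4) `S40/Cov/Y/SheetEq.lean` : a `DVal` `v'` containing a `DVal` `v` which is a valuation
ring with the same uniformizer is equal to it -/
theorem DVal.mem_of_le {F₀ κ : Type*} [Field F₀] [Field κ] (v v' : DVal F₀ κ) (hπ : v.π = v'.π)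
    (hO : ∀ x, x ∈ v.O → x ∈ v'.O)
    (hunit : ∀ x : v.O, v.red x ≠ 0 → ((x : v.O) : F₀)⁻¹ ∈ v.O)
    (hval : ∀ x : F₀, x ∈ v.O ∨ x⁻¹ ∈ v.O) (x : F₀) (hx : x ∈ v'.O) : x ∈ v.O := by
  rcases hval x with h | h
  · exact h
  · by_contra hcon
    have hx0 : x ≠ 0 := by
      rintro rfl
      exact hcon v.O.zero_mem
    have h0 : v.red ⟨x⁻¹, h⟩ = 0 := by
      by_contra hne
      have h1 := hunit ⟨x⁻¹, h⟩ hne
      rw [inv_inv] at h1
      exact hcon h1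
    have h1 : x⁻¹ * v.π⁻¹ ∈ v.O := (v.red_eq_zero_iff _).1 h0
    have h3 := v'.O.mul_mem hx (hO _ h1)
    rw [← mul_assoc, mul_inv_cancel₀ hx0, hπ] at h3
    have h4 : v'.red 1 = 0 := (v'.red_eq_zero_iff 1).2 h3
    rw [map_one] at h4
    exact one_ne_zero h4

/-- (YS4') `S40/Cov/Y/SheetEq.lean` : `IsAbove` only depends on `O`, `red`, `π` -/
theorem IsAbove.congr_left {F₀ E₀ κ : Type*} [Field F₀] [Field E₀] [Field κ] [Algebra F₀ E₀]
    {v v' : DVal F₀ κ} {w : DVal E₀ κ} (h : IsAbove v w) (hπ : v.π = v'.π)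
    (hO : ∀ x, x ∈ v.O ↔ x ∈ v'.O)
    (hred : ∀ (x : F₀) (h : x ∈ v.O) (h' : x ∈ v'.O), v'.red ⟨x, h'⟩ = v.red ⟨x, h⟩) :
    IsAbove v' w where
  unif := by rw [← hπ]; exact h.unif
  mem := fun c => (h.mem c).trans (hO c)
  red := fun c hc hc' => by
    rw [hred c ((hO c).2 hc) hc]
    exact h.red c _ hc'

end Fermat.Agent.S40Lib
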