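import Fermat.Agent.S40.Cov.Y.Defs

/-!
# S40/S44, COV, block (Y): (YS0) the rings `O_w` are valuation rings
-/

set_option autoImplicit false

open Polynomial Fermat.Agent.S18Lib Fermat.Agent.S34Lib Fermat.Agent.S36Lib

namespace Fermat.Agent.S40Lib

/-- (YS0) `S40/Cov/Y/SheetVal.lean` : the rings `O_w` are valuation rings -/
theorem DVHyp.mem_or_inv_mem {K k F Φ κ Ω : Type*} [Field K] [Field k] [Field F] [Algebra K F]
    [CommRing Φ] [Algebra k Φ] [Field κ] [Fintype Ω] {A : ValuationSubring K} {resK : A →+* k}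
    {R : RedG A resK F Φ} {pr : Ω → Φ →+* κ} {π : A} (H : DVHyp R pr π)
    (harch : ∀ c : K, ∃ N : ℕ, c * (π : K) ^ N ∈ A) (w : Ω) (x : F) :
    x ∈ (H.dv w).O ∨ x⁻¹ ∈ (H.dv w).O := by
  by_cases hx : x = 0
  · left
    rw [hx]
    exact (H.dv w).O.zero_mem
  have hπ := H.algπ_ne
  obtain ⟨N, hN⟩ := H.exists_pow_mul_mem harch x
  have hne : x * algebraMap K F (π : K) ^ N ≠ 0 := mul_ne_zero hx (pow_ne_zero _ hπ)
  obtain ⟨μ, hμ, hlead⟩ := H.exists_lead_ne_zero harch w _ hne (H.coe_mem_dv_O w ⟨_, hN⟩)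
  rw [(H.dv w).lead_of_ge hμ] at hlead
  have hinv := H.inv_mem_of_red_ne_zero w _ hlead
  have hμ' : x * algebraMap K F (π : K) ^ N * (algebraMap K F (π : K))⁻¹ ^ μ ∈ (H.dv w).O := hμ
  have hinv' : (x * algebraMap K F (π : K) ^ N * (algebraMap K F (π : K))⁻¹ ^ μ)⁻¹ ∈ (H.dv w).O :=
    hinv
  have hπm : algebraMap K F (π : K) ∈ (H.dv w).O := (H.dv w).π_mem
  rcases le_total N μ with hle | hle
  · left
    obtain ⟨d, rfl⟩ := Nat.exists_eq_add_of_le hle
    have h1 := (H.dv w).O.mul_mem hμ' ((H.dv w).O.pow_mem hπm d)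
    have h2 : x * algebraMap K F (π : K) ^ N * (algebraMap K F (π : K))⁻¹ ^ (N + d) *
        algebraMap K F (π : K) ^ d = x := by
      rw [inv_pow, pow_add]
      field_simp
    rwa [h2] at h1
  · right
    obtain ⟨d, rfl⟩ := Nat.exists_eq_add_of_le hle
    have h1 := (H.dv w).O.mul_mem hinv' ((H.dv w).O.pow_mem hπm d)
    have h2 : (x * algebraMap K F (π : K) ^ (μ + d) * (algebraMap K F (π : K))⁻¹ ^ μ)⁻¹ *
        algebraMap K F (π : K) ^ d = x⁻¹ := by
      rw [inv_pow, pow_add]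
      field_simp
    rwa [h2] at h1

end Fermat.Agent.S40Lib
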